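import Fermat.Agent.S25.H.Families
import Fermat.Agent.S25.H.Lift

/-! # S25 : what the algebra side delivers to the scheme side -/
set_option autoImplicit false
universe u
open TensorProduct Polynomial

namespace Fermat.Agent.S25
variable {k : Type u} [Field k] {Γ : CurveAlg k} [hΓ : Fact Γ.IsGood]

open PicAlg

/-- **Main theorem of the algebra side.** -/
theorem nonempty_algAtlas [IsAlgClosed k] : Nonempty (AlgAtlas Γ) := (preAtlas Γ).exists_finite

/-- H8 : line bundles lift along square zero extensions. -/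
theorem exists_lift_of_sq_zero (A : Type u) [CommRing A] [Algebra k A] (I : Ideal A) (hI : I ^ 2 = ⊥)
    (n : PicAlg Γ (A ⧸ I)) : ∃ m : PicAlg Γ A, PicAlg.map (Ideal.Quotient.mkₐ k I) m = n :=
  exists_lift_of_sq_zero_aux A I hI n

/-- H9 : the locus where a class is trivial is closed. -/
theorem isClosed_trivial_locus [IsAlgClosed k] (A : Type u) [CommRing A] [Algebra k A]
    (n : PicAlg Γ A) : ∃ Z : Set (PrimeSpectrum A), IsClosed Z ∧
      ∀ (K : Type u) [Field K] [Algebra k K] (f : A →ₐ[k] K),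
        PicAlg.map f n = 1 ↔ PrimeSpectrum.comap f.toRingHom ⊥ ∈ Z := by
  obtain ⟨e0, e1, he, -, -, hc0⟩ := PicAlg.exists_h0_h1 n
  obtain ⟨e0', e1', he', -, -, hc0'⟩ := PicAlg.exists_h0_h1 n⁻¹
  refine ⟨{p | 1 ≤ e0 p} ∩ {p | 1 ≤ e0' p}, (hc0 1).inter (hc0' 1), fun K _ _ f => ?_⟩
  constructor
  · intro h
    refine ⟨?_, ?_⟩
    · show 1 ≤ e0 _
      rw [← (he K f).1, h, h0_one]
    · show 1 ≤ e0' _
      rw [← (he' K f).1, map_inv, h, inv_one, h0_one]
  · rintro ⟨h1, h2⟩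
    have h1' : 1 ≤ e0 (PrimeSpectrum.comap f.toRingHom ⊥) := h1
    have h2' : 1 ≤ e0' (PrimeSpectrum.comap f.toRingHom ⊥) := h2
    rw [← (he K f).1] at h1'
    rw [← (he' K f).1, map_inv] at h2'
    exact eq_one_of_h0_pos _ h1' h2'

/-- B6 : the degree is locally constant. -/
theorem exists_deg_locallyConstant (A : Type u) [CommRing A] [Algebra k A] (n : PicAlg Γ A) :
    ∃ δ : PrimeSpectrum A → ℤ, IsLocallyConstant δ ∧
      ∀ (K : Type u) [Field K] [Algebra k K] (f : A →ₐ[k] K),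
        PicAlg.deg (PicAlg.map f n) = δ (PrimeSpectrum.comap f.toRingHom ⊥) := by
  obtain ⟨e0, e1, he, hc, -, -⟩ := PicAlg.exists_h0_h1 n
  refine ⟨fun p => (e0 p : ℤ) - (e1 p : ℤ) - (1 - (Γ.genus : ℤ)), ?_, fun K _ _ f => ?_⟩
  · exact hc.comp (fun z => z - (1 - (Γ.genus : ℤ)))
  · unfold PicAlg.deg PicAlg.chi
    rw [(he K f).1, (he K f).2]

end Fermat.Agent.S25
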