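import Fermat.Agent.S25.L.PicAlg

/-! # S25 : definition of an algebraic atlas of `G_alg` -/
set_option autoImplicit false
universe u
open TensorProduct Polynomial

namespace Fermat.Agent.S25
variable {k : Type u} [Field k] {Γ : CurveAlg k} [hΓ : Fact Γ.IsGood]

namespace PicAlg
variable {A A' : Type u} [CommRing A] [Algebra k A] [CommRing A'] [Algebra k A']

/-- the functor `G_alg` : rigidifiable classes of fibrewise degree `0`. -/
def IsG (n : PicAlg Γ A) : Prop := n.Rigid ∧ n.Deg0

end PicAlg

open PicAlg

/-- the residue field point `A → κ(p)` as a `k`-algebra map -/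
noncomputable abbrev toResidue {A : Type u} [CommRing A] [Algebra k A] (p : PrimeSpectrum A) :
    A →ₐ[k] p.asIdeal.ResidueField :=
  (Algebra.ofId A p.asIdeal.ResidueField).restrictScalars k

/-- the localisation map `A → A[1/a]` as a `k`-algebra map -/
noncomputable abbrev toAway {A : Type u} [CommRing A] [Algebra k A] (a : A) :
    A →ₐ[k] Localization.Away a :=
  (Algebra.ofId A (Localization.Away a)).restrictScalars k

/-- An affine atlas of `G_alg` (conditions in LOCAL form; `M i` is the fibrewise condition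
"the class lies in the chart `i`"). -/
structure AlgPreAtlas (Γ : CurveAlg k) [Fact Γ.IsGood] where
  ι : Type u
  R : ι → Type u
  [commRing : ∀ i, CommRing (R i)]
  [algebra : ∀ i, Algebra k (R i)]
  finiteType : ∀ i, Algebra.FiniteType k (R i)
  ξ : ∀ i, PicAlg Γ (R i)
  ξ_mem : ∀ i, (ξ i).IsG
  /-- the chart condition on field valued points -/
  M : ι → ∀ (K : Type u) [Field K] [Algebra k K], PicAlg Γ K → Prop
  /-- it is invariant under field extensions, in both directions -/
  M_map_iff : ∀ (i : ι) (K K' : Type u) [Field K] [Algebra k K] [Field K'] [Algebra k K']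
    (f : K →ₐ[k] K') (n : PicAlg Γ K), M i K' (PicAlg.map f n) ↔ M i K n
  /-- field valued points of the chart -/
  M_iff : ∀ (i : ι) (K : Type u) [Field K] [Algebra k K] (n : PicAlg Γ K),
    M i K n ↔ ∃ φ : R i →ₐ[k] K, PicAlg.map φ (ξ i) = n
  inj : ∀ (i : ι) (A : Type u) [CommRing A] [Algebra k A] (φ ψ : R i →ₐ[k] A),
    PicAlg.map φ (ξ i) = PicAlg.map ψ (ξ i) → φ = ψ
  /-- local surjectivity (this also gives openness of the locus `{p | M i κ(p) n_p}`) -/
  surj : ∀ (i : ι) (A : Type u) [CommRing A] [Algebra k A] (n : PicAlg Γ A), n.Rigid →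
    ∀ p : PrimeSpectrum A, M i p.asIdeal.ResidueField (PicAlg.map (toResidue p) n) →
      ∃ (a : A) (_ : a ∉ p.asIdeal) (φ : R i →ₐ[k] Localization.Away a),
        PicAlg.map φ (ξ i) = PicAlg.map (toAway a) n
  cover : ∀ (K : Type u) [Field K] [Algebra k K] (n : PicAlg Γ K), n.Deg0 → ∃ i : ι, M i K n

attribute [instance] AlgPreAtlas.commRing AlgPreAtlas.algebra

/-- A FINITE affine atlas of `G_alg`. -/
structure AlgAtlas (Γ : CurveAlg k) [Fact Γ.IsGood] extends AlgPreAtlas Γ where
  finite : Finite ι

end Fermat.Agent.S25
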