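import Mathlib

/-!
# S25 : core algebraic definitions (curve presentation, line-bundle data)
See S25/BLUEPRINT.md (origin/helper25).
-/
set_option autoImplicit false
universe u
open TensorProduct

namespace Fermat.Agent.S25

/-- Algebraic presentation of a curve `C = U₀ ∪ U₁` over `k`:
`B₀ = Γ(U₀)`, `B₁ = Γ(U₁)`, `B₀₁ = Γ(U₀ ∩ U₁) = B₀[1/x] = B₁[1/y]`, `x y = 1`,
`e₀` = the base point (lying in `U₀`). -/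
structure CurveAlg (k : Type u) [Field k] where
  B₀ : Type u
  B₁ : Type u
  B₀₁ : Type u
  [commRing₀ : CommRing B₀]
  [commRing₁ : CommRing B₁]
  [commRing₀₁ : CommRing B₀₁]
  [algebra₀ : Algebra k B₀]
  [algebra₁ : Algebra k B₁]
  [algebra₀₁ : Algebra k B₀₁]
  ι₀ : B₀ →ₐ[k] B₀₁
  ι₁ : B₁ →ₐ[k] B₀₁
  x : B₀
  y : B₁
  e₀ : B₀ →ₐ[k] k

attribute [instance] CurveAlg.commRing₀ CurveAlg.commRing₁ CurveAlg.commRing₀₁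
  CurveAlg.algebra₀ CurveAlg.algebra₁ CurveAlg.algebra₀₁

variable {k : Type u} [Field k]

namespace CurveAlg

variable (Γ : CurveAlg k)

/-- The hypotheses on a presentation (all provable for a smooth proper integral curve). -/
structure IsGood : Prop where
  isDomain₀ : IsDomain Γ.B₀
  isDomain₁ : IsDomain Γ.B₁
  dedekind₀ : IsDedekindDomain Γ.B₀
  dedekind₁ : IsDedekindDomain Γ.B₁
  finiteType₀ : Algebra.FiniteType k Γ.B₀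
  finiteType₁ : Algebra.FiniteType k Γ.B₁
  loc₀ : @IsLocalization.Away Γ.B₀ _ Γ.x Γ.B₀₁ _ Γ.ι₀.toRingHom.toAlgebra
  loc₁ : @IsLocalization.Away Γ.B₁ _ Γ.y Γ.B₀₁ _ Γ.ι₁.toRingHom.toAlgebra
  xy : Γ.ι₀ Γ.x * Γ.ι₁ Γ.y = 1
  finite₀ : (Polynomial.aeval (R := k) Γ.x).toRingHom.Finite
  finite₁ : (Polynomial.aeval (R := k) Γ.y).toRingHom.Finite
  transc₀ : Transcendental k Γ.x
  transc₁ : Transcendental k Γ.y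

/-- swap the two charts (the base point is lost, so we ask for a new one). -/
def swap (e₁ : Γ.B₁ →ₐ[k] k) : CurveAlg k where
  B₀ := Γ.B₁
  B₁ := Γ.B₀
  B₀₁ := Γ.B₀₁
  ι₀ := Γ.ι₁
  ι₁ := Γ.ι₀
  x := Γ.y
  y := Γ.x
  e₀ := e₁

variable (A : Type u) [CommRing A] [Algebra k A]

/-- coordinate rings of `U₀ × Spec A`, `U₁ × Spec A`, `U₀₁ × Spec A`. -/
abbrev R₀ : Type u := A ⊗[k] Γ.B₀
abbrev R₁ : Type u := A ⊗[k] Γ.B₁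
abbrev R₀₁ : Type u := A ⊗[k] Γ.B₀₁

/-- restriction maps of functions -/
noncomputable def φ₀ : Γ.R₀ A →ₐ[A] Γ.R₀₁ A := Algebra.TensorProduct.map (AlgHom.id A A) Γ.ι₀
noncomputable def φ₁ : Γ.R₁ A →ₐ[A] Γ.R₀₁ A := Algebra.TensorProduct.map (AlgHom.id A A) Γ.ι₁

/-- the coordinate `x` on `U₀ × Spec A`, `y = 1/x` on `U₁ × Spec A`. -/
noncomputable def xA : Γ.R₀ A := 1 ⊗ₜ Γ.x
noncomputable def yA : Γ.R₁ A := 1 ⊗ₜ Γ.y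

/-- the base point as a section `Spec A → U₀ × Spec A`. -/
noncomputable def eA : Γ.R₀ A →ₐ[A] A :=
  (Algebra.TensorProduct.rid k A A).toAlgHom.comp (Algebra.TensorProduct.map (AlgHom.id A A) Γ.e₀)

end CurveAlg

/-- A line bundle on `C × Spec A`, presented on the two charts:
invertible modules `N₀`, `N₁` over `R₀`, `R₁`, a module `N₀₁` over `R₀₁` and semilinear
"restriction" maps which are localisations (injective, and every element of `N₀₁` becomes a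
restriction after multiplication by a power of `x`, resp. `y`). -/
structure LB (Γ : CurveAlg k) (A : Type u) [CommRing A] [Algebra k A] where
  N₀ : Type u
  N₁ : Type u
  N₀₁ : Type u
  [acg₀ : AddCommGroup N₀]
  [acg₁ : AddCommGroup N₁]
  [acg₀₁ : AddCommGroup N₀₁]
  [mod₀ : Module (Γ.R₀ A) N₀]
  [mod₁ : Module (Γ.R₁ A) N₁]
  [mod₀₁ : Module (Γ.R₀₁ A) N₀₁]
  r₀ : N₀ →ₛₗ[(Γ.φ₀ A).toRingHom] N₀₁
  r₁ : N₁ →ₛₗ[(Γ.φ₁ A).toRingHom] N₀₁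
  inv₀ : Module.Invertible (Γ.R₀ A) N₀
  inv₁ : Module.Invertible (Γ.R₁ A) N₁
  inj₀ : Function.Injective r₀
  inj₁ : Function.Injective r₁
  span₀ : ∀ n : N₀₁, ∃ (m : ℕ) (n₀ : N₀), (Γ.φ₀ A (Γ.xA A)) ^ m • n = r₀ n₀
  span₁ : ∀ n : N₀₁, ∃ (m : ℕ) (n₁ : N₁), (Γ.φ₁ A (Γ.yA A)) ^ m • n = r₁ n₁

attribute [instance] LB.acg₀ LB.acg₁ LB.acg₀₁ LB.mod₀ LB.mod₁ LB.mod₀₁ LB.inv₀ LB.inv₁

namespace LB

variable {Γ : CurveAlg k} {A : Type u} [CommRing A] [Algebra k A] (𝒩 : LB Γ A)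

/-! ### `A`-module structures -/
noncomputable instance modA₀ : Module A 𝒩.N₀ := Module.compHom _ (algebraMap A (Γ.R₀ A))
noncomputable instance modA₁ : Module A 𝒩.N₁ := Module.compHom _ (algebraMap A (Γ.R₁ A))
noncomputable instance modA₀₁ : Module A 𝒩.N₀₁ := Module.compHom _ (algebraMap A (Γ.R₀₁ A))
instance towerA₀ : IsScalarTower A (Γ.R₀ A) 𝒩.N₀ := .of_algebraMap_smul fun _ _ => rfl
instance towerA₁ : IsScalarTower A (Γ.R₁ A) 𝒩.N₁ := .of_algebraMap_smul fun _ _ => rfl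
instance towerA₀₁ : IsScalarTower A (Γ.R₀₁ A) 𝒩.N₀₁ := .of_algebraMap_smul fun _ _ => rfl

/-- the restriction maps as `A`-linear maps -/
noncomputable def r₀A : 𝒩.N₀ →ₗ[A] 𝒩.N₀₁ where
  toFun := 𝒩.r₀
  map_add' := 𝒩.r₀.map_add
  map_smul' a n := by
    change 𝒩.r₀ (algebraMap A (Γ.R₀ A) a • n) = algebraMap A (Γ.R₀₁ A) a • 𝒩.r₀ n
    rw [𝒩.r₀.map_smulₛₗ]; congr 1; exact (Γ.φ₀ A).commutes a

noncomputable def r₁A : 𝒩.N₁ →ₗ[A] 𝒩.N₀₁ where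
  toFun := 𝒩.r₁
  map_add' := 𝒩.r₁.map_add
  map_smul' a n := by
    change 𝒩.r₁ (algebraMap A (Γ.R₁ A) a • n) = algebraMap A (Γ.R₀₁ A) a • 𝒩.r₁ n
    rw [𝒩.r₁.map_smulₛₗ]; congr 1; exact (Γ.φ₁ A).commutes a

/-- Čech `H⁰` : pairs of sections agreeing on the overlap. -/
noncomputable def H0 : Submodule A (𝒩.N₀ × 𝒩.N₁) := LinearMap.ker (𝒩.r₀A.coprod (-𝒩.r₁A))

/-- Čech `H¹`. -/
abbrev H1 : Type u := 𝒩.N₀₁ ⧸ (LinearMap.range 𝒩.r₀A ⊔ LinearMap.range 𝒩.r₁A)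

/-- isomorphisms of line bundle data -/
structure Iso (𝒩 𝒩' : LB Γ A) where
  e₀ : 𝒩.N₀ ≃ₗ[Γ.R₀ A] 𝒩'.N₀
  e₁ : 𝒩.N₁ ≃ₗ[Γ.R₁ A] 𝒩'.N₁
  e₀₁ : 𝒩.N₀₁ ≃ₗ[Γ.R₀₁ A] 𝒩'.N₀₁
  comm₀ : ∀ n, e₀₁ (𝒩.r₀ n) = 𝒩'.r₀ (e₀ n)
  comm₁ : ∀ n, e₀₁ (𝒩.r₁ n) = 𝒩'.r₁ (e₁ n)

/-- `𝒩 ≈ 𝒩'` -/
def Equiv (𝒩 𝒩' : LB Γ A) : Prop := Nonempty (Iso 𝒩 𝒩')

/-- rigidifiable along the base point: there is a semilinear surjection `N₀ → A`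
(equivalently `A ⊗[R₀] N₀ ≃ A`). -/
def Rigid : Prop := ∃ ℓ : 𝒩.N₀ →ₛₗ[(Γ.eA A).toRingHom] A, Function.Surjective ℓ

end LB

namespace CurveAlg
variable (Γ : CurveAlg k) {A A' : Type u} [CommRing A] [Algebra k A] [CommRing A'] [Algebra k A']
/-- base change of the coordinate rings -/
noncomputable def ρ₀ (f : A →ₐ[k] A') : Γ.R₀ A →ₐ[k] Γ.R₀ A' :=
  Algebra.TensorProduct.map f (AlgHom.id k Γ.B₀)
noncomputable def ρ₁ (f : A →ₐ[k] A') : Γ.R₁ A →ₐ[k] Γ.R₁ A' :=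
  Algebra.TensorProduct.map f (AlgHom.id k Γ.B₁)
noncomputable def ρ₀₁ (f : A →ₐ[k] A') : Γ.R₀₁ A →ₐ[k] Γ.R₀₁ A' :=
  Algebra.TensorProduct.map f (AlgHom.id k Γ.B₀₁)
end CurveAlg

namespace LB
variable {Γ : CurveAlg k} {A A' : Type u} [CommRing A] [Algebra k A] [CommRing A'] [Algebra k A']

/-- `𝒩'` is (a model of) the base change of `𝒩` along `f : A → A'`.
(As all modules are invertible, "the image spans" is equivalent to `IsBaseChange`.) -/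
structure BC (f : A →ₐ[k] A') (𝒩 : LB Γ A) (𝒩' : LB Γ A') where
  b₀ : 𝒩.N₀ →ₛₗ[(Γ.ρ₀ f).toRingHom] 𝒩'.N₀
  b₁ : 𝒩.N₁ →ₛₗ[(Γ.ρ₁ f).toRingHom] 𝒩'.N₁
  b₀₁ : 𝒩.N₀₁ →ₛₗ[(Γ.ρ₀₁ f).toRingHom] 𝒩'.N₀₁
  comm₀ : ∀ n, b₀₁ (𝒩.r₀ n) = 𝒩'.r₀ (b₀ n)
  comm₁ : ∀ n, b₀₁ (𝒩.r₁ n) = 𝒩'.r₁ (b₁ n)
  span₀ : Submodule.span (Γ.R₀ A') (Set.range b₀) = ⊤
  span₁ : Submodule.span (Γ.R₁ A') (Set.range b₁) = ⊤

/-- `𝒩''` is (a model of) the tensor product of `𝒩` and `𝒩'`. -/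
structure Tens (𝒩 𝒩' 𝒩'' : LB Γ A) where
  m₀ : 𝒩.N₀ →ₗ[Γ.R₀ A] 𝒩'.N₀ →ₗ[Γ.R₀ A] 𝒩''.N₀
  m₁ : 𝒩.N₁ →ₗ[Γ.R₁ A] 𝒩'.N₁ →ₗ[Γ.R₁ A] 𝒩''.N₁
  m₀₁ : 𝒩.N₀₁ →ₗ[Γ.R₀₁ A] 𝒩'.N₀₁ →ₗ[Γ.R₀₁ A] 𝒩''.N₀₁
  comm₀ : ∀ n n', m₀₁ (𝒩.r₀ n) (𝒩'.r₀ n') = 𝒩''.r₀ (m₀ n n')
  comm₁ : ∀ n n', m₀₁ (𝒩.r₁ n) (𝒩'.r₁ n') = 𝒩''.r₁ (m₁ n n')
  span₀ : Submodule.span (Γ.R₀ A) {z | ∃ n n', m₀ n n' = z} = ⊤
  span₁ : Submodule.span (Γ.R₁ A) {z | ∃ n n', m₁ n n' = z} = ⊤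

/-- Euler characteristic of a line bundle datum over a field. -/
noncomputable def chi {K : Type u} [Field K] [Algebra k K] (𝒩 : LB Γ K) : ℤ :=
  (Module.finrank K 𝒩.H0 : ℤ) - (Module.finrank K 𝒩.H1 : ℤ)

end LB

/-- the genus `dim H¹(C, O)`. -/
noncomputable def CurveAlg.genus (Γ : CurveAlg k) : ℕ :=
  Module.finrank k
    (Γ.B₀₁ ⧸ (LinearMap.range Γ.ι₀.toLinearMap ⊔ LinearMap.range Γ.ι₁.toLinearMap))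

/-- fibrewise of degree `0`, i.e. `χ = 1 - g` on every field valued point. -/
def LB.Deg0 {Γ : CurveAlg k} {A : Type u} [CommRing A] [Algebra k A] (𝒩 : LB Γ A) : Prop :=
  ∀ (K : Type u) [Field K] [Algebra k K] (f : A →ₐ[k] K) (𝒩' : LB Γ K),
    Nonempty (LB.BC f 𝒩 𝒩') → 𝒩'.chi = 1 - (Γ.genus : ℤ)

end Fermat.Agent.S25
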