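import Fermat.Agent.S25.R.FiniteSheaf
import Fermat.Agent.S25.R.Representable

/-!
# S25 / M3 = layer R : representability by a finite affine atlas
-/

set_option autoImplicit false

universe u

open CategoryTheory Limits AlgebraicGeometry Opposite

namespace Fermat.Agent.S25

variable {S : Scheme.{u}}

/-- **Main theorem of layer R**. -/
theorem exists_isUniversal_of_finite_affineAtlas (F : (Over S)ᵒᵖ ⥤ Type (u + 1))
    (hF : IsZariskiSheaf₂ F) (𝔄 : AffineAtlas F) [Finite 𝔄.ι] [Nonempty 𝔄.ι] :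
    ∃ (J : Over S) (ζ : F.obj (op J)), IsUniversal F J ζ ∧
      ∃ j : ∀ i, 𝔄.X i ⟶ J, (∀ i, IsOpenImmersion (j i).left) ∧
        (∀ i, F.map (j i).op ζ = 𝔄.ξ i) ∧ ∀ p : J.left, ∃ i, p ∈ Set.range (j i).left.base :=
  exists_isUniversal_of_affineAtlas F (isZariskiSheaf_of_finite_affineAtlas F hF 𝔄) 𝔄

end Fermat.Agent.S25
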