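import Mathlib

/-!
# S25 / M3 : interface definitions for "representability by an open cover"

`F : (Over S)ᵒᵖ ⥤ Type (u+1)` is a presheaf on schemes over `S` (values in `Type (u+1)` because the
Prelude Picard presheaf takes values there).
-/

set_option autoImplicit false

universe u

open CategoryTheory Limits AlgebraicGeometry Opposite

namespace Fermat.Agent.S25

variable {S : Scheme.{u}}

/-- An open subscheme of an `S`-scheme, as an `S`-scheme. -/
noncomputable def overOpen (T : Over S) (U : T.left.Opens) : Over S := Over.mk (U.ι ≫ T.hom)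

/-- The inclusion of an open subscheme, over `S`. -/
noncomputable def overOpenι (T : Over S) (U : T.left.Opens) : overOpen T U ⟶ T :=
  Over.homMk U.ι rfl

/-- The inclusion between two open subschemes, over `S`. -/
noncomputable def overOpenLE (T : Over S) {U V : T.left.Opens} (h : U ≤ V) :
    overOpen T U ⟶ overOpen T V :=
  Over.homMk (T.left.homOfLE h) (by simp [overOpen])

/-- `F` is a sheaf for Zariski open covers (explicit form, covers by open subschemes). -/
structure IsZariskiSheaf (F : (Over S)ᵒᵖ ⥤ Type (u + 1)) : Prop where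
  sep : ∀ (T : Over S) {ι : Type u} (U : ι → T.left.Opens) (_ : ⨆ i, U i = ⊤)
      (η η' : F.obj (op T)),
      (∀ i, F.map (overOpenι T (U i)).op η = F.map (overOpenι T (U i)).op η') → η = η'
  glue : ∀ (T : Over S) {ι : Type u} (U : ι → T.left.Opens) (_ : ⨆ i, U i = ⊤)
      (η : ∀ i, F.obj (op (overOpen T (U i)))),
      (∀ i j, F.map (overOpenLE T (inf_le_left : U i ⊓ U j ≤ U i)).op (η i) =
              F.map (overOpenLE T (inf_le_right : U i ⊓ U j ≤ U j)).op (η j)) →
      ∃ η₀ : F.obj (op T), ∀ i, F.map (overOpenι T (U i)).op η₀ = η i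

/-- The part of the sheaf property which is proved directly for the Picard functor:
separatedness for arbitrary open covers, gluing for covers by TWO opens. -/
structure IsZariskiSheaf₂ (F : (Over S)ᵒᵖ ⥤ Type (u + 1)) : Prop where
  sep : ∀ (T : Over S) {ι : Type u} (U : ι → T.left.Opens) (_ : ⨆ i, U i = ⊤)
      (η η' : F.obj (op T)),
      (∀ i, F.map (overOpenι T (U i)).op η = F.map (overOpenι T (U i)).op η') → η = η'
  glue₂ : ∀ (T : Over S) (U₁ U₂ : T.left.Opens) (_ : U₁ ⊔ U₂ = ⊤)
      (η₁ : F.obj (op (overOpen T U₁))) (η₂ : F.obj (op (overOpen T U₂))),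
      F.map (overOpenLE T (inf_le_left : U₁ ⊓ U₂ ≤ U₁)).op η₁ =
        F.map (overOpenLE T (inf_le_right : U₁ ⊓ U₂ ≤ U₂)).op η₂ →
      ∃ η₀ : F.obj (op T), F.map (overOpenι T U₁).op η₀ = η₁ ∧ F.map (overOpenι T U₂).op η₀ = η₂

/-- Precomposition of an `S`-scheme structure: the morphism `f`, viewed over `S`. -/
noncomputable def overPre {T' : Scheme.{u}} (T : Over S) (f : T' ⟶ T.left) :
    Over.mk (f ≫ T.hom) ⟶ T :=
  Over.homMk f rfl

/-- An atlas of a presheaf `F` on `S`-schemes, all conditions being tested on AFFINE schemes only. -/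
structure AffineAtlas (F : (Over S)ᵒᵖ ⥤ Type (u + 1)) where
  ι : Type u
  X : ι → Over S
  ξ : ∀ i, F.obj (op (X i))
  inj : ∀ (i : ι) (R : CommRingCat.{u}) (t : Spec R ⟶ S) (a b : Over.mk t ⟶ X i),
      F.map a.op (ξ i) = F.map b.op (ξ i) → a = b
  isOpen : ∀ (i : ι) (R : CommRingCat.{u}) (t : Spec R ⟶ S) (η : F.obj (op (Over.mk t))),
      ∃ U : (Spec R).Opens, ∀ (R' : CommRingCat.{u}) (f : Spec R' ⟶ Spec R),
        (∃ a : Over.mk (f ≫ t) ⟶ X i,
          F.map a.op (ξ i) = F.map (overPre (Over.mk t) f).op η) ↔ Set.range f.base ⊆ (U : Set (Spec R))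
  cover : ∀ (K : Type u) [Field K] (t : Spec (CommRingCat.of K) ⟶ S) (η : F.obj (op (Over.mk t))),
      ∃ (i : ι) (a : Over.mk t ⟶ X i), F.map a.op (ξ i) = η

/-- `(J, ζ)` represents `F`. -/
def IsUniversal (F : (Over S)ᵒᵖ ⥤ Type (u + 1)) (J : Over S) (ζ : F.obj (op J)) : Prop :=
  ∀ (T : Over S) (η : F.obj (op T)), ∃! g : T ⟶ J, F.map g.op ζ = η

end Fermat.Agent.S25
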