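import Fermat.Agent.S25.Defs
import Fermat.Statements.S25

/-!
# S25 : scheme level definitions and the interface between sheaves and algebra
-/
set_option autoImplicit false
universe u
open CategoryTheory CategoryTheory.Limits AlgebraicGeometry AlgebraicGeometry.RelPicard
  NeronModelInfra GoodReductionJacobian TensorProduct

namespace Fermat.Agent.S25

variable (k : Type u) [Field k]

/-- structure morphism of `Spec A` for a `k`-algebra `A`. -/
noncomputable def tSpec (A : Type u) [CommRing A] [Algebra k A] :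
    Spec (CommRingCat.of A) ⟶ Spec (CommRingCat.of k) :=
  Spec.map (CommRingCat.ofHom (algebraMap k A))

variable {k}

/-- the morphism over `Spec k` induced by a `k`-algebra map. -/
noncomputable def homOver {A A' : Type u} [CommRing A] [Algebra k A] [CommRing A'] [Algebra k A']
    (f : A →ₐ[k] A') : SchemeHomOver (tSpec k A') (tSpec k A) :=
  ⟨Spec.map (CommRingCat.ofHom f.toRingHom), by
    rw [tSpec, tSpec, ← Spec.map_comp, ← CommRingCat.ofHom_comp]
    congr 2
    exact f.comp_algebraMap⟩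

variable {C : Scheme.{u}} (c : C ⟶ Spec (CommRingCat.of k))
  (ε : SchemeHomOver (𝟙 (Spec (CommRingCat.of k))) c)

/-- `Γ` presents the pointed curve `(C, ε)`. -/
structure Presentation (Γ : CurveAlg k) where
  j₀ : Spec (CommRingCat.of Γ.B₀) ⟶ C
  j₁ : Spec (CommRingCat.of Γ.B₁) ⟶ C
  open₀ : IsOpenImmersion j₀
  open₁ : IsOpenImmersion j₁
  over₀ : j₀ ≫ c = tSpec k Γ.B₀
  over₁ : j₁ ≫ c = tSpec k Γ.B₁
  cover : j₀.opensRange ⊔ j₁.opensRange = ⊤
  isPullback : IsPullback (Spec.map (CommRingCat.ofHom Γ.ι₀.toRingHom))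
    (Spec.map (CommRingCat.ofHom Γ.ι₁.toRingHom)) j₀ j₁
  base : ε.1 = Spec.map (CommRingCat.ofHom Γ.e₀.toRingHom) ≫ j₀

/-- The dictionary between invertible sheaves on `C × Spec A` and line bundle data. -/
structure Dictionary (Γ : CurveAlg k) where
  Rel : ∀ (A : Type u) [CommRing A] [Algebra k A],
    (pullback c (tSpec k A)).Modules → LB Γ A → Prop
  exists_data : ∀ (A : Type u) [CommRing A] [Algebra k A] (L : (pullback c (tSpec k A)).Modules),
    Scheme.Modules.IsInvertible L → ∃ 𝒩, Rel A L 𝒩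
  exists_sheaf : ∀ (A : Type u) [CommRing A] [Algebra k A] (𝒩 : LB Γ A),
    ∃ L, Scheme.Modules.IsInvertible L ∧ Rel A L 𝒩
  iso_iff : ∀ (A : Type u) [CommRing A] [Algebra k A] (L L' : (pullback c (tSpec k A)).Modules)
    (𝒩 𝒩' : LB Γ A), Rel A L 𝒩 → Rel A L' 𝒩' → (Nonempty (L ≅ L') ↔ 𝒩.Equiv 𝒩')
  baseChange : ∀ (A A' : Type u) [CommRing A] [Algebra k A] [CommRing A'] [Algebra k A']
    (f : A →ₐ[k] A') (L : (pullback c (tSpec k A)).Modules) (𝒩 : LB Γ A) (𝒩' : LB Γ A'),
    Rel A L 𝒩 → Nonempty (LB.BC f 𝒩 𝒩') →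
      Rel A' ((Scheme.Modules.pullback (baseChangeSnd c (homOver f))).obj L) 𝒩'
  rigid_iff : ∀ (A : Type u) [CommRing A] [Algebra k A] (L : (pullback c (tSpec k A)).Modules)
    (𝒩 : LB Γ A), Rel A L 𝒩 →
      (Nonempty ((Scheme.Modules.pullback (rigSection c (tSpec k A) ε)).obj L ≅
        SheafOfModules.unit (Spec (CommRingCat.of A)).ringCatSheaf) ↔ 𝒩.Rigid)

end Fermat.Agent.S25
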